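import Mathlib.Algebra.Polynomial.Laurent
import Mathlib.LinearAlgebra.Matrix.NonsingularInverse
import Mathlib.LinearAlgebra.Matrix.GeneralLinearGroup.Defs
import Mathlib.LinearAlgebra.Matrix.ToLinearEquiv
import Mathlib.Algebra.Polynomial.FieldDivision
import Mathlib.Data.Fin.Tuple.Sort
import Mathlib.Algebra.Order.BigOperators.Group.Finset
import Mathlib.RingTheory.PrincipalIdealDomain

/-!
# Birkhoff factorisation over Laurent polynomials

Grothendieck's splitting of vector bundles on the projective line, in matrix form. For existence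
one minimises the sum of the row degrees over the left orbit of a polynomial matrix; the matrix
of leading row coefficients is then invertible.
-/

set_option autoImplicit false

noncomputable section

open Polynomial LaurentPolynomial Matrix
open scoped LaurentPolynomial

namespace Fermat.Agent.BirkhoffFactorisation

variable {k : Type*} [Field k] {ι : Type*} [Fintype ι] [DecidableEq ι]

/-- `p(t) ↦ p(t⁻¹)`. -/
def toInvLaurent : k[X] →+* k[T;T⁻¹] :=
  ((invert : k[T;T⁻¹] ≃ₐ[k] k[T;T⁻¹]) : k[T;T⁻¹] →+* k[T;T⁻¹]).comp toLaurent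

theorem coeff_toInvLaurent_of_pos (p : k[X]) {m : ℤ} (hm : 0 < m) :
    (toInvLaurent p).coeff m = 0 := by
  induction p using Polynomial.induction_on' with
  | add p q hp hq => rw [map_add, AddMonoidAlgebra.coeff_add, Finsupp.add_apply, hp, hq, add_zero]
  | monomial i c =>
    rw [← Polynomial.C_mul_X_pow_eq_monomial, map_mul, map_pow]
    simp only [toInvLaurent, RingHom.coe_comp, Function.comp_apply, toLaurent_C, toLaurent_X,
      RingHom.coe_coe, invert_C, invert_T, T_pow, ← single_eq_C_mul_T,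
      AddMonoidAlgebra.coeff_single]
    rw [Finsupp.single_eq_of_ne]
    omega

theorem T_mul_toInvLaurent_reflect {p : k[X]} {d : ℕ} (h : p.natDegree ≤ d) :
    T (d : ℤ) * toInvLaurent (reflect d p) = toLaurent p := by
  refine induction_with_natDegree_le
    (fun q : k[X] => T (d : ℤ) * toInvLaurent (reflect d q) = toLaurent q) d ?_ ?_ ?_ p h
  · simp
  · intro i r _ hi
    rw [reflect_C_mul_X_pow, Polynomial.revAt_le hi]
    simp only [toInvLaurent, RingHom.coe_comp, Function.comp_apply, map_mul, toLaurent_C,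
      toLaurent_X_pow,
      RingHom.coe_coe, invert_C, invert_T]
    rw [mul_left_comm, ← T_add]
    congr 2
    rw [Nat.cast_sub hi]
    ring
  · intro f g _ _ hf hg
    rw [reflect_add, map_add, mul_add, hf, hg, map_add]

/-- The degree of a row. -/
def rowDeg (B : Matrix ι ι k[X]) (i : ι) : ℕ := Finset.univ.sup fun j => (B i j).natDegree

omit [DecidableEq ι] in
theorem natDegree_le_rowDeg (B : Matrix ι ι k[X]) (i j : ι) :
    (B i j).natDegree ≤ rowDeg B i :=
  Finset.le_sup (f := fun j => (B i j).natDegree) (Finset.mem_univ j)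

/-- The leading coefficient of each row. -/
def leadMatrix (B : Matrix ι ι k[X]) : Matrix ι ι k :=
  Matrix.of fun i j => (B i j).coeff (rowDeg B i)

/-- If the leading matrix is singular a unimodular row operation lowers the degrees. -/
theorem exists_smaller {B : Matrix ι ι k[X]} (hB : B.det ≠ 0) (hL : (leadMatrix B).det = 0) :
    ∃ U : Matrix ι ι k[X], IsUnit U.det ∧
      ∑ i, rowDeg (U * B) i < ∑ i, rowDeg B i := by
  classical
  obtain ⟨v, hv, hvL⟩ := Matrix.exists_vecMul_eq_zero_iff.2 hL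
  obtain ⟨l, hl⟩ := Function.ne_iff.1 hv
  obtain ⟨i₀, hi₀, hmax⟩ := (Finset.univ.filter fun i => v i ≠ 0).exists_max_image (rowDeg B)
    ⟨l, Finset.mem_filter.2 ⟨Finset.mem_univ _, hl⟩⟩
  have hv₀ : v i₀ ≠ 0 := (Finset.mem_filter.1 hi₀).2
  set r := rowDeg B i₀ with hr
  set w : ι → k[X] := fun i => Polynomial.C (v i) * Polynomial.X ^ (r - rowDeg B i) with hw
  set U : Matrix ι ι k[X] := (1 : Matrix ι ι k[X]).updateRow i₀ w with hU
  have hUdet : U.det = w i₀ := by
    have := det_updateRow_sum (1 : Matrix ι ι k[X]) i₀ w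
    rw [det_one, smul_eq_mul, mul_one] at this
    rw [hU, ← this]
    congr 2
    funext j
    simp [Matrix.one_apply]
  have hU0 : IsUnit U.det := by
    rw [hUdet, hw]
    simpa [← hr] using hv₀
  have hrow : ∀ i, i ≠ i₀ → ∀ j, (U * B) i j = B i j := by
    intro i hi j
    rw [Matrix.mul_apply, hU, Finset.sum_eq_single i]
    · simp [updateRow_ne hi]
    · intro b _ hb; simp [updateRow_ne hi, hb.symm]
    · simp
  have hnew : ∀ j, (U * B) i₀ j = ∑ i, w i * B i j := fun j => by
    simp [Matrix.mul_apply, hU]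
  have hdeg : ∀ j, ((U * B) i₀ j).natDegree ≤ r := by
    intro j
    rw [hnew]
    refine natDegree_sum_le_of_forall_le _ _ fun i _ => ?_
    by_cases hvi : v i = 0
    · simp [hw, hvi]
    · refine natDegree_mul_le.trans ?_
      have h1 : (w i).natDegree ≤ r - rowDeg B i := natDegree_C_mul_X_pow_le _ _
      have h2 := natDegree_le_rowDeg B i j
      have h3 := hmax i (Finset.mem_filter.2 ⟨Finset.mem_univ _, hvi⟩)
      omega
  have htop : ∀ j, ((U * B) i₀ j).coeff r = 0 := by
    intro j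
    rw [hnew, finsetSum_coeff]
    refine Eq.trans ?_ (congrFun hvL j)
    refine Finset.sum_congr rfl fun i _ => ?_
    by_cases hvi : v i = 0
    · simp [hw, hvi]
    · have h3 := hmax i (Finset.mem_filter.2 ⟨Finset.mem_univ _, hvi⟩)
      simp only [hw, mul_assoc, Polynomial.coeff_C_mul, coeff_X_pow_mul']
      rw [if_pos (Nat.sub_le _ _), Nat.sub_sub_self h3]
      rfl
  have hr0 : 0 < r := by
    refine Nat.pos_of_ne_zero fun h0 => ?_
    have hz : ∀ j, (U * B) i₀ j = 0 := fun j => by
      have h1 := htop j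
      rw [h0] at h1
      rw [eq_C_of_natDegree_le_zero (p := (U * B) i₀ j) ((hdeg j).trans_eq h0), h1, map_zero]
    have := det_eq_zero_of_row_eq_zero i₀ hz
    rw [det_mul, mul_eq_zero] at this
    exact this.elim hU0.ne_zero hB
  refine ⟨U, hU0, Finset.sum_lt_sum (fun i _ => ?_) ⟨i₀, Finset.mem_univ _, ?_⟩⟩
  · rcases eq_or_ne i i₀ with rfl | hi
    · exact Finset.sup_le fun j _ => hdeg j
    · exact le_of_eq (Finset.sup_congr rfl fun j _ => by rw [hrow i hi j])
  · rw [rowDeg, ← hr, Finset.sup_lt_iff (show (⊥ : ℕ) < r from hr0)]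
    intro j _
    refine lt_of_le_of_lt (natDegree_le_iff_coeff_eq_zero.2 fun m hm => ?_) (Nat.sub_one_lt hr0.ne')
    rcases eq_or_ne m r with rfl | hne
    · exact htop j
    · exact coeff_eq_zero_of_natDegree_lt ((hdeg j).trans_lt (by omega))

/-- Every nonsingular polynomial matrix is left equivalent to a row reduced one. -/
theorem exists_rowReduced {A : Matrix ι ι k[X]} (hA : A.det ≠ 0) :
    ∃ U : Matrix ι ι k[X], IsUnit U.det ∧ (leadMatrix (U * A)).det ≠ 0 := by
  classical
  have hex : ∃ s, ∃ U : Matrix ι ι k[X], IsUnit U.det ∧ ∑ i, rowDeg (U * A) i = s :=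
    ⟨_, 1, by simp, rfl⟩
  obtain ⟨U, hU, hs⟩ := Nat.find_spec hex
  refine ⟨U, hU, fun hL => ?_⟩
  obtain ⟨E, hE, hlt⟩ := exists_smaller (B := U * A)
    (by rw [det_mul]; exact mul_ne_zero hU.ne_zero hA) hL
  exact Nat.find_min hex (hs ▸ hlt) ⟨E * U, by rw [det_mul]; exact hE.mul hU,
    by rw [mul_assoc]⟩

theorem isUnit_of_laurent {p : k[X]} (h0 : p.coeff 0 ≠ 0) (h : IsUnit (toLaurent p)) :
    IsUnit p := by
  obtain ⟨g, hg⟩ := h.exists_right_inv
  obtain ⟨j, g', hg'⟩ := exists_T_pow g
  have hdvd : p ∣ Polynomial.X ^ j := ⟨g', toLaurent_injective (by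
    rw [map_mul, hg', ← mul_assoc, hg, one_mul, toLaurent_X_pow])⟩
  have hco : IsCoprime (Polynomial.X ^ j : k[X]) p :=
    (((Polynomial.irreducible_X (R := k)).coprime_iff_not_dvd).2
      fun e => h0 (Polynomial.X_dvd_iff.1 e)).pow_left
  exact hco.symm.isUnit_of_dvd' dvd_rfl hdvd

/-- A polynomial matrix with unit determinant is invertible. -/
def toGL (U : Matrix ι ι k[X]) (hU : IsUnit U.det) : GL ι k[X] :=
  Matrix.nonsingInvUnit U hU

/-- **Birkhoff factorisation**. -/
theorem exists_factorisation (A : Matrix ι ι k[T;T⁻¹]) (hA : IsUnit A.det) :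
    ∃ (d : ι → ℤ) (P Q : GL ι k[X]), A = (P : Matrix ι ι k[X]).map toLaurent *
      diagonal (fun i => T (d i)) * (Q : Matrix ι ι k[X]).map toInvLaurent := by
  classical
  choose Ne f hf using fun i j => exists_T_pow (A i j)
  set N := ∑ i, ∑ j, Ne i j with hN
  set P₀ : Matrix ι ι k[X] := Matrix.of fun i j => Polynomial.X ^ (N - Ne i j) * f i j with hP₀
  have hP₀A : P₀.map toLaurent = (T (N : ℤ) : k[T;T⁻¹]) • A := by
    refine Matrix.ext fun i j => ?_
    have hle : Ne i j ≤ N :=
      (Finset.single_le_sum (fun _ _ => Nat.zero_le _) (Finset.mem_univ j)).trans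
      (Finset.single_le_sum (f := fun i => ∑ j, Ne i j) (fun _ _ => Nat.zero_le _)
        (Finset.mem_univ i))
    rw [Matrix.map_apply, hP₀, Matrix.of_apply, map_mul, toLaurent_X_pow, hf, Matrix.smul_apply,
      smul_eq_mul, mul_left_comm, ← T_add, mul_comm]
    congr 2
    omega
  have hdet₀ : IsUnit (toLaurent P₀.det) := by
    rw [RingHom.map_det, RingHom.mapMatrix_apply, hP₀A, det_smul]
    exact ((isUnit_T _).pow _).mul hA
  obtain ⟨U, hU, hL⟩ := exists_rowReduced (A := P₀) fun e => by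
    rw [e, map_zero] at hdet₀
    exact not_isUnit_zero hdet₀
  set B := U * P₀ with hB
  set e := fun i => rowDeg B i with he
  set R : Matrix ι ι k[X] := Matrix.of fun i j => reflect (e i) (B i j) with hR
  have hBR : B.map toLaurent = diagonal (fun i => T (e i : ℤ)) * R.map toInvLaurent := by
    refine Matrix.ext fun i j => ?_
    rw [diagonal_mul, Matrix.map_apply, Matrix.map_apply, hR, Matrix.of_apply,
      T_mul_toInvLaurent_reflect (natDegree_le_rowDeg B i j)]
  have hR0 : R.det.coeff 0 = (leadMatrix B).det := by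
    rw [← constantCoeff_apply, RingHom.map_det]
    congr 1
    ext i j
    simp [hR, leadMatrix, coeff_reflect, he]
  have hRunit : IsUnit R.det := by
    refine isUnit_of_laurent (by rw [hR0]; exact hL) ?_
    have h1 : IsUnit (toLaurent B.det) := by
      rw [hB, det_mul, map_mul]
      exact (hU.map _).mul hdet₀
    rw [RingHom.map_det, RingHom.mapMatrix_apply, hBR, det_mul, IsUnit.mul_iff] at h1
    have h2 : IsUnit (toInvLaurent R.det) := by
      rw [RingHom.map_det, RingHom.mapMatrix_apply]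
      exact h1.2
    exact (isUnit_map_iff (invert : k[T;T⁻¹] ≃ₐ[k] k[T;T⁻¹]) _).1 h2
  refine ⟨fun i => (e i : ℤ) - N, (toGL U hU)⁻¹, toGL R hRunit, ?_⟩
  have hinv : (((toGL U hU)⁻¹ : GL ι k[X]) : Matrix ι ι k[X]) * B = P₀ := by
    rw [hB, ← mul_assoc]
    show _ * (toGL U hU : Matrix ι ι k[X]) * P₀ = P₀
    rw [Units.inv_mul, one_mul]
  have h3 := congrArg (fun M : Matrix ι ι k[X] => M.map toLaurent) hinv
  simp only [Matrix.map_mul, hBR, hP₀A] at h3
  have hd : diagonal (fun i => (T ((e i : ℤ) - N) : k[T;T⁻¹])) =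
      (T (-(N : ℤ)) : k[T;T⁻¹]) • diagonal (fun i => (T (e i : ℤ) : k[T;T⁻¹])) := by
    rw [← diagonal_smul]
    congr 1
    funext i
    rw [Pi.smul_apply, smul_eq_mul, ← T_add, neg_add_eq_sub]
  show A = _
  rw [hd, Matrix.mul_smul, Matrix.smul_mul, mul_assoc]
  show A = T (-(N : ℤ)) • (_ * (_ * R.map toInvLaurent))
  rw [h3, smul_smul, ← T_add, neg_add_cancel, T_zero, one_smul]

theorem exists_perm_of_det_ne_zero {S : Type*} [CommRing S] {M : Matrix ι ι S} (h : M.det ≠ 0) :
    ∃ σ : Equiv.Perm ι, ∀ j, M (σ j) j ≠ 0 := by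
  by_contra hno
  push Not at hno
  refine h ?_
  rw [det_apply]
  refine Finset.sum_eq_zero fun σ _ => ?_
  obtain ⟨j, hj⟩ := hno σ
  have h0 : ∏ i, M (σ i) i = 0 := Finset.prod_eq_zero (Finset.mem_univ j) hj
  rw [h0, smul_zero]

/-- Comparison of exponents along a change of frames. -/
theorem exists_perm_le {U W : Matrix ι ι k[X]} (hU : U.det ≠ 0) {a b : ι → ℤ}
    (h : U.map toLaurent * diagonal (fun i => T (a i)) =
      diagonal (fun i => T (b i)) * W.map toInvLaurent) :
    ∃ σ : Equiv.Perm ι, ∀ j, a j ≤ b (σ j) := by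
  obtain ⟨σ, hσ⟩ := exists_perm_of_det_ne_zero hU
  refine ⟨σ, fun j => not_lt.1 fun hlt => hσ j ?_⟩
  have h1 := congrFun (congrFun h (σ j)) j
  rw [mul_diagonal, diagonal_mul, Matrix.map_apply, Matrix.map_apply] at h1
  have h2 : toInvLaurent (W (σ j) j) = toLaurent (U (σ j) j) * T (a j - b (σ j)) := by
    rw [T_sub, ← mul_assoc, h1, mul_right_comm, ← T_add, add_neg_cancel, T_zero, one_mul]
  ext m
  have h3 := congrArg (fun q : k[T;T⁻¹] => q.coeff ((m : ℤ) + (a j - b (σ j)))) h2
  simp only [coeff_toInvLaurent_of_pos _ (show 0 < (m : ℤ) + (a j - b (σ j)) by omega)] at h3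
  rw [T, AddMonoidAlgebra.coeff_mul_single_add, mul_one, coeff_toLaurent,
    show (m : ℤ) = Nat.castEmbedding m from rfl,
    Finsupp.mapDomain_apply Nat.castEmbedding.injective] at h3
  exact h3.symm

/-- **Uniqueness of the exponents**. -/
theorem factorisation_unique {a b : ι → ℤ} {P P' Q Q' : GL ι k[X]}
    (h : (P : Matrix ι ι k[X]).map toLaurent * diagonal (fun i => T (a i)) *
        (Q : Matrix ι ι k[X]).map toInvLaurent =
      (P' : Matrix ι ι k[X]).map toLaurent * diagonal (fun i => T (b i)) *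
        (Q' : Matrix ι ι k[X]).map toInvLaurent) :
    ∃ σ : Equiv.Perm ι, b = a ∘ σ := by
  have key : ∀ {a b : ι → ℤ} {P P' Q Q' : GL ι k[X]},
      (P : Matrix ι ι k[X]).map toLaurent * diagonal (fun i => T (a i)) *
          (Q : Matrix ι ι k[X]).map toInvLaurent =
        (P' : Matrix ι ι k[X]).map toLaurent * diagonal (fun i => T (b i)) *
          (Q' : Matrix ι ι k[X]).map toInvLaurent →
      ∃ σ : Equiv.Perm ι, ∀ j, a j ≤ b (σ j) := by
    intro a b P P' Q Q' h
    refine exists_perm_le (U := ((P'⁻¹ * P : GL ι k[X]) : Matrix ι ι k[X]))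
      (W := ((Q' * Q⁻¹ : GL ι k[X]) : Matrix ι ι k[X]))
      ((Matrix.isUnit_iff_isUnit_det _).1 (P'⁻¹ * P).isUnit).ne_zero ?_
    have h1 := congrArg (fun M => ((P'⁻¹ : GL ι k[X]) : Matrix ι ι k[X]).map toLaurent * M *
      ((Q⁻¹ : GL ι k[X]) : Matrix ι ι k[X]).map toInvLaurent) h
    simp only [← mul_assoc, ← Matrix.map_mul] at h1
    simpa [mul_assoc, ← Matrix.map_mul] using h1
  obtain ⟨σ, hσ⟩ := key h
  obtain ⟨τ, hτ⟩ := key h.symm
  have hsum : ∑ j, a j = ∑ j, b (σ j) := by
    refine le_antisymm (Finset.sum_le_sum fun j _ => hσ j) ?_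
    rw [Equiv.sum_comp σ b, ← Equiv.sum_comp τ a]
    exact Finset.sum_le_sum fun j _ => hτ j
  refine ⟨σ.symm, funext fun i => ?_⟩
  have := (Finset.sum_eq_sum_iff_of_le fun j _ => hσ j).1 hsum (σ.symm i) (Finset.mem_univ _)
  simpa using this.symm

end Fermat.Agent.BirkhoffFactorisation
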